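import Fermat.Agent.S14.FirstIneq.Key.Indep
import Fermat.Agent.S14.FirstIneq.Fix
import Fermat.Agent.S14.FirstIneq.NormZ

/-!
# S14 / FirstIneq / Key / Count : norms of `S`-units lie in `Z`, and the counting argument
deducing `key` from the index bound.  Statements FROZEN (helper297).
-/

set_option autoImplicit false
set_option linter.unusedSectionVars false
set_option linter.unusedVariables false

namespace Fermat.Agent.S14.FirstIneq

open NumberField IsDedekindDomain UniqueFactorizationMonoid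
open scoped Pointwise

universe u v

variable {p : ℕ} [Fact p.Prime]
variable (F : Type u) (N : Type v) [Field F] [NumberField F] [Field N] [NumberField N]
  [Algebra F N] [IsGalois F N]

/-- Step 1: the norms of the `S`-units of `N` satisfy the local conditions defining `Z`. -/
theorem key_aux_norm_le_Z (hdeg : Module.finrank F N = p)
    (R : Finset (Ideal (𝓞 F))) (hR : ∀ w ∈ R, w.IsPrime ∧ w ≠ ⊥)
    (hram : ∀ Q : Ideal (𝓞 N), Q.IsPrime → Q ≠ ⊥ → Q.under (𝓞 F) ∉ R → UnramifiedAt F N Q)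
    (S : Finset (Ideal (𝓞 F))) (hS : ∀ v ∈ S, v.IsPrime ∧ v ≠ ⊥ ∧ v ∉ R)
    (I : Finset (Ideal (𝓞 F))) (hI : ∀ v, v ∈ I ↔ v ∈ S ∧ ¬ SplitsCompletely F N v)
    (Rr : Finset (Ideal (𝓞 F))) (hRr : ∀ w, w ∈ Rr ↔ w ∈ R ∧ IsRam F N w) :
    (SUnits N (above F N (S : Set (Ideal (𝓞 F))))).map (unitsNorm F N) ≤ key_aux_Z F p I Rr := by
  rintro _ ⟨z, hz, rfl⟩
  rw [mem_key_aux_Z]
  refine ⟨fun v hv => ?_, fun w hw hwp hw0 => ?_⟩
  · obtain ⟨hvS, hns⟩ := (hI v).1 hv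
    obtain ⟨hvp, hv0, hvR⟩ := hS v hvS
    refine dvd_ord_unitsNorm F N hdeg hvp hv0 (fun Q hQ hQv => ?_) hns z
    refine hram Q hQ (ne_bot_of_liesOver F N hv0 hQv) ?_
    rw [← hQv.over]
    exact hvR
  · obtain ⟨hwR, hwram⟩ := (hRr w).1 hw
    refine isPthRes_unitsNorm F N hdeg hwp hw0 hwram z (fun Q hQ hQw => ?_)
    refine (mem_SUnits_iff N _ z).1 hz Q hQ (ne_bot_of_liesOver F N hw0 hQw) ?_
    rintro ⟨_, hQS⟩
    rw [← hQw.over] at hQS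
    exact (hS w (Finset.mem_coe.1 hQS)).2.2 hwR

/-- Steps 1-3: `key`, given the index bound as a hypothesis. -/
theorem key_aux_key_of_bound (hdeg : Module.finrank F N = p)
    (R : Finset (Ideal (𝓞 F))) (hR : ∀ w ∈ R, w.IsPrime ∧ w ≠ ⊥)
    (hram : ∀ Q : Ideal (𝓞 N), Q.IsPrime → Q ≠ ⊥ → Q.under (𝓞 F) ∉ R → UnramifiedAt F N Q)
    (S : Finset (Ideal (𝓞 F))) (hS : ∀ v ∈ S, v.IsPrime ∧ v ≠ ⊥ ∧ v ∉ R)
    (I : Finset (Ideal (𝓞 F))) (hI : ∀ v, v ∈ I ↔ v ∈ S ∧ ¬ SplitsCompletely F N v)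
    (Rr : Finset (Ideal (𝓞 F))) (hRr : ∀ w, w ∈ Rr ↔ w ∈ R ∧ IsRam F N w)
    (hbound : ((SUnits N (above F N (S : Set (Ideal (𝓞 F))))).map (unitsNorm F N)).relIndex
        (SUnits F (S : Set (Ideal (𝓞 F)))) ≠ 0 ∧
      ((SUnits N (above F N (S : Set (Ideal (𝓞 F))))).map (unitsNorm F N)).relIndex
        (SUnits F (S : Set (Ideal (𝓞 F)))) * p ≤ p ^ (I.card + Rr.card))
    (z x : Ideal (𝓞 F) → Fˣ)
    (hzS : ∀ v ∈ I, z v ∈ SUnits F (S : Set (Ideal (𝓞 F))))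
    (hxS : ∀ w ∈ Rr, x w ∈ SUnits F (S : Set (Ideal (𝓞 F))))
    (hz1 : ∀ v ∈ I, (p : ℤ) ∣ ord F v (z v : F) - 1)
    (hz1' : ∀ v ∈ I, ∀ v' ∈ I, v' ≠ v → (p : ℤ) ∣ ord F v' (z v : F))
    (hz2 : ∀ v ∈ I, ∀ w ∈ Rr, IsPthRes F p w (z v : F))
    (hx1 : ∀ w ∈ Rr, ∀ v ∈ I, (p : ℤ) ∣ ord F v (x w : F))
    (hx2 : ∀ w ∈ Rr, ¬ IsPthRes F p w (x w : F))
    (hx3 : ∀ w ∈ Rr, ∀ w' ∈ Rr, w' ≠ w → IsPthRes F p w' (x w : F)) : False := by
  classical
  obtain ⟨hidx0, hidx⟩ := hbound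
  have hle := key_aux_norm_le_Z F N hdeg R hR hram S hS I hI Rr hRr
  have hdvd : (key_aux_Z F p I Rr).relIndex (SUnits F (S : Set (Ideal (𝓞 F)))) ∣
      ((SUnits N (above F N (S : Set (Ideal (𝓞 F))))).map (unitsNorm F N)).relIndex
        (SUnits F (S : Set (Ideal (𝓞 F)))) := Subgroup.relIndex_dvd_of_le_left _ hle
  have hZ0 : (key_aux_Z F p I Rr).relIndex (SUnits F (S : Set (Ideal (𝓞 F)))) ≠ 0 := by
    intro h0
    rw [h0] at hdvd
    exact hidx0 (zero_dvd_iff.1 hdvd)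
  have hZle := Nat.le_of_dvd (Nat.pos_of_ne_zero hidx0) hdvd
  have hRp : ∀ w ∈ Rr, w.IsPrime ∧ w ≠ ⊥ ∧ w ∉ S := fun w hw =>
    ⟨(hR w ((hRr w).1 hw).1).1, (hR w ((hRr w).1 hw).1).2,
      fun hwS => (hS w hwS).2.2 ((hRr w).1 hw).1⟩
  have hΦU : ∀ (a : ↥I → Fin p) (b : ↥Rr → Fin p),
      key_aux_Phi F I Rr z x a b ∈ SUnits F (S : Set (Ideal (𝓞 F))) := by
    intro a b
    unfold key_aux_Phi
    exact Subgroup.mul_mem _
      (Subgroup.prod_mem _ fun v _ => Subgroup.pow_mem _ (hzS v v.2) _)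
      (Subgroup.prod_mem _ fun w _ => Subgroup.pow_mem _ (hxS w w.2) _)
  let f : (↥I → Fin p) × (↥Rr → Fin p) →
      ↥(SUnits F (S : Set (Ideal (𝓞 F)))) ⧸
        (key_aux_Z F p I Rr).subgroupOf (SUnits F (S : Set (Ideal (𝓞 F)))) :=
    fun ab => QuotientGroup.mk ⟨key_aux_Phi F I Rr z x ab.1 ab.2, hΦU ab.1 ab.2⟩
  have hf : Function.Injective f := by
    rintro ⟨a, b⟩ ⟨a', b'⟩ hab
    have h1 := QuotientGroup.eq.1 hab
    rw [Subgroup.mem_subgroupOf] at h1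
    have h2 : key_aux_Phi F I Rr z x a' b' / key_aux_Phi F I Rr z x a b
        ∈ key_aux_Z F p I Rr := by
      rw [div_eq_mul_inv, mul_comm]
      simpa using h1
    obtain ⟨rfl, rfl⟩ := key_aux_indep F p S I Rr hRp z x hxS hz1 hz1' hz2 hx1 hx2 hx3 a' a b' b h2
    rfl
  have hfin : Finite (↥(SUnits F (S : Set (Ideal (𝓞 F)))) ⧸
        (key_aux_Z F p I Rr).subgroupOf (SUnits F (S : Set (Ideal (𝓞 F))))) :=
    Nat.finite_of_card_ne_zero hZ0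
  have hcard : p ^ (I.card + Rr.card) ≤
      (key_aux_Z F p I Rr).relIndex (SUnits F (S : Set (Ideal (𝓞 F)))) := by
    have h3 := Nat.card_le_card_of_injective f hf
    rw [Nat.card_eq_fintype_card, Fintype.card_prod, Fintype.card_fun, Fintype.card_fun,
      Fintype.card_fin, Fintype.card_coe, Fintype.card_coe, ← pow_add] at h3
    exact h3
  have hp2 := (Fact.out : p.Prime).two_le
  have hpos : 0 < p ^ (I.card + Rr.card) := pow_pos (by omega) _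
  have h4 := Nat.mul_le_mul_left
    (((SUnits N (above F N (S : Set (Ideal (𝓞 F))))).map (unitsNorm F N)).relIndex
        (SUnits F (S : Set (Ideal (𝓞 F))))) hp2
  omega

end Fermat.Agent.S14.FirstIneq
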