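import Fermat.Agent.S14.FirstIneq.PthRes

/-!
# S14 / FirstIneq / Key / Indep : the subgroup `Z` of `Fˣ` cut out by the local conditions
"`p ∣ ord_v` for `v ∈ I`, `p`-th power residue at all `w ∈ Rr`", and the independence of a
triangular family modulo `Z`.  Statements FROZEN (helper297).
-/

set_option autoImplicit false
set_option linter.unusedSectionVars false

namespace Fermat.Agent.S14.FirstIneq

open NumberField IsDedekindDomain UniqueFactorizationMonoid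

variable (F : Type*) [Field F] [NumberField F]

/-- The subgroup of `Fˣ` of elements `u` with `p ∣ ord_v u` for all `v ∈ I` and `u` a `p`-th power
residue at every nonzero prime `w ∈ Rr`. -/
def key_aux_Z (p : ℕ) (I Rr : Finset (Ideal (𝓞 F))) : Subgroup Fˣ where
  carrier := {u | (∀ v ∈ I, (p : ℤ) ∣ ord F v (u : F)) ∧
    (∀ w ∈ Rr, w.IsPrime → w ≠ ⊥ → IsPthRes F p w (u : F))}
  mul_mem' := by
    intro a b ha hb
    refine ⟨fun v hv => ?_, fun w hw hwp hw0 => ?_⟩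
    · rw [Units.val_mul, ord_mul F v a.ne_zero b.ne_zero]
      exact dvd_add (ha.1 v hv) (hb.1 v hv)
    · rw [Units.val_mul]
      exact IsPthRes.mul F p hwp (ha.2 w hw hwp hw0) (hb.2 w hw hwp hw0)
  one_mem' := by
    refine ⟨fun v _ => ?_, fun w _ hwp _ => ?_⟩
    · rw [Units.val_one, ord_one]
      exact dvd_zero _
    · rw [Units.val_one]
      exact isPthRes_one F p hwp
  inv_mem' := by
    intro a ha
    refine ⟨fun v hv => ?_, fun w hw hwp hw0 => ?_⟩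
    · rw [Units.val_inv_eq_inv_val, ord_inv]
      exact (dvd_neg).mpr (ha.1 v hv)
    · rw [Units.val_inv_eq_inv_val]
      exact IsPthRes.inv F p hwp hw0 (ha.2 w hw hwp hw0)

theorem mem_key_aux_Z (p : ℕ) (I Rr : Finset (Ideal (𝓞 F))) (u : Fˣ) :
    u ∈ key_aux_Z F p I Rr ↔ (∀ v ∈ I, (p : ℤ) ∣ ord F v (u : F)) ∧
      (∀ w ∈ Rr, w.IsPrime → w ≠ ⊥ → IsPthRes F p w (u : F)) :=
  Iff.rfl

/-- `Φ(a, b) = ∏_{v ∈ I} z_v ^ a_v * ∏_{w ∈ Rr} x_w ^ b_w`. -/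
def key_aux_Phi {p : ℕ} (I Rr : Finset (Ideal (𝓞 F))) (z x : Ideal (𝓞 F) → Fˣ)
    (a : ↥I → Fin p) (b : ↥Rr → Fin p) : Fˣ :=
  (∏ v : ↥I, z (v : Ideal (𝓞 F)) ^ ((a v : Fin p) : ℕ)) *
    (∏ w : ↥Rr, x (w : Ideal (𝓞 F)) ^ ((b w : Fin p) : ℕ))

/-- The coercion to `F` of `Φ(a, b)`. -/
theorem key_aux_indep_val {p : ℕ} (I Rr : Finset (Ideal (𝓞 F))) (z x : Ideal (𝓞 F) → Fˣ)
    (a : ↥I → Fin p) (b : ↥Rr → Fin p) :
    ((key_aux_Phi F I Rr z x a b : Fˣ) : F) =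
      (∏ v : ↥I, (z (v : Ideal (𝓞 F)) : F) ^ ((a v : Fin p) : ℕ)) *
        (∏ w : ↥Rr, (x (w : Ideal (𝓞 F)) : F) ^ ((b w : Fin p) : ℕ)) := by
  simp only [key_aux_Phi, Units.val_mul, Units.coe_prod, Units.val_pow_eq_pow_val]

/-- The valuation of `Φ(a, b)`. -/
theorem key_aux_indep_ord {p : ℕ} (I Rr : Finset (Ideal (𝓞 F))) (z x : Ideal (𝓞 F) → Fˣ)
    (a : ↥I → Fin p) (b : ↥Rr → Fin p) (v' : Ideal (𝓞 F)) :
    ord F v' ((key_aux_Phi F I Rr z x a b : Fˣ) : F) =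
      (∑ v : ↥I, (((a v : Fin p) : ℕ) : ℤ) * ord F v' (z (v : Ideal (𝓞 F)) : F)) +
        (∑ w : ↥Rr, (((b w : Fin p) : ℕ) : ℤ) * ord F v' (x (w : Ideal (𝓞 F)) : F)) := by
  have h1 : (∏ v : ↥I, (z (v : Ideal (𝓞 F)) : F) ^ ((a v : Fin p) : ℕ)) ≠ 0 :=
    Finset.prod_ne_zero_iff.2 (fun i _ => pow_ne_zero _ (Units.ne_zero _))
  have h2 : (∏ w : ↥Rr, (x (w : Ideal (𝓞 F)) : F) ^ ((b w : Fin p) : ℕ)) ≠ 0 :=
    Finset.prod_ne_zero_iff.2 (fun i _ => pow_ne_zero _ (Units.ne_zero _))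
  rw [key_aux_indep_val, ord_mul F v' h1 h2,
    ord_prod F v' _ _ (fun i _ => pow_ne_zero _ (Units.ne_zero _)),
    ord_prod F v' _ _ (fun i _ => pow_ne_zero _ (Units.ne_zero _))]
  simp only [ord_pow]

/-- The valuation of `Φ(a, b)` at `v' ∈ I` is congruent to `a v'` modulo `p`. -/
theorem key_aux_indep_cast (p : ℕ) (I Rr : Finset (Ideal (𝓞 F))) (z x : Ideal (𝓞 F) → Fˣ)
    (hz1 : ∀ v ∈ I, (p : ℤ) ∣ ord F v (z v : F) - 1)
    (hz1' : ∀ v ∈ I, ∀ v' ∈ I, v' ≠ v → (p : ℤ) ∣ ord F v' (z v : F))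
    (hx1 : ∀ w ∈ Rr, ∀ v ∈ I, (p : ℤ) ∣ ord F v (x w : F))
    (a : ↥I → Fin p) (b : ↥Rr → Fin p) (v' : ↥I) :
    ((ord F (v' : Ideal (𝓞 F)) ((key_aux_Phi F I Rr z x a b : Fˣ) : F) : ℤ) : ZMod p) =
      (((a v' : Fin p) : ℕ) : ZMod p) := by
  have hx0 : ∀ w : ↥Rr,
      ((ord F (v' : Ideal (𝓞 F)) (x (w : Ideal (𝓞 F)) : F) : ℤ) : ZMod p) = 0 := by
    intro w
    exact (ZMod.intCast_zmod_eq_zero_iff_dvd _ p).2 (hx1 w w.2 v' v'.2)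
  have hz0 : ∀ v : ↥I, v ≠ v' →
      ((ord F (v' : Ideal (𝓞 F)) (z (v : Ideal (𝓞 F)) : F) : ℤ) : ZMod p) = 0 := by
    intro v hv
    refine (ZMod.intCast_zmod_eq_zero_iff_dvd _ p).2 (hz1' v v.2 v' v'.2 ?_)
    intro h
    exact hv (Subtype.ext h.symm)
  have hz1c : ((ord F (v' : Ideal (𝓞 F)) (z (v' : Ideal (𝓞 F)) : F) : ℤ) : ZMod p) = 1 := by
    have h := (ZMod.intCast_zmod_eq_zero_iff_dvd _ p).2 (hz1 v' v'.2)
    rw [Int.cast_sub, Int.cast_one] at h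
    exact sub_eq_zero.1 h
  rw [key_aux_indep_ord, Int.cast_add, Int.cast_sum, Int.cast_sum,
    Finset.sum_eq_single v' (fun v _ hv => by rw [Int.cast_mul, hz0 v hv, mul_zero])
      (fun h => absurd (Finset.mem_univ _) h),
    Finset.sum_eq_zero (fun w _ => by rw [Int.cast_mul, hx0 w, mul_zero]), add_zero,
    Int.cast_mul, hz1c, mul_one, Int.cast_natCast]

/-- First half of the independence: the exponents of the `z v` agree. -/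
theorem key_aux_indep_fst (p : ℕ) [Fact p.Prime] (I Rr : Finset (Ideal (𝓞 F)))
    (z x : Ideal (𝓞 F) → Fˣ)
    (hz1 : ∀ v ∈ I, (p : ℤ) ∣ ord F v (z v : F) - 1)
    (hz1' : ∀ v ∈ I, ∀ v' ∈ I, v' ≠ v → (p : ℤ) ∣ ord F v' (z v : F))
    (hx1 : ∀ w ∈ Rr, ∀ v ∈ I, (p : ℤ) ∣ ord F v (x w : F))
    (a a' : ↥I → Fin p) (b b' : ↥Rr → Fin p)
    (h : ∀ v ∈ I, (p : ℤ) ∣ ord F v
      ((key_aux_Phi F I Rr z x a b / key_aux_Phi F I Rr z x a' b' : Fˣ) : F)) :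
    a = a' := by
  funext v'
  have h1 := h v' v'.2
  rw [Units.val_div_eq_div_val, ord_div F _ (Units.ne_zero _) (Units.ne_zero _)] at h1
  have h2 := (ZMod.intCast_zmod_eq_zero_iff_dvd _ p).2 h1
  rw [Int.cast_sub, key_aux_indep_cast F p I Rr z x hz1 hz1' hx1,
    key_aux_indep_cast F p I Rr z x hz1 hz1' hx1, sub_eq_zero] at h2
  have h3 := (ZMod.natCast_eq_natCast_iff' _ _ _).1 h2
  rw [Nat.mod_eq_of_lt (a v').2, Nat.mod_eq_of_lt (a' v').2] at h3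
  exact Fin.ext h3

open Classical in
/-- `Φ(a, b)` with the factor at `w ∈ Rr` split off. -/
theorem key_aux_indep_split {p : ℕ} (I Rr : Finset (Ideal (𝓞 F))) (z x : Ideal (𝓞 F) → Fˣ)
    (a : ↥I → Fin p) (b : ↥Rr → Fin p) (w : ↥Rr) :
    ((key_aux_Phi F I Rr z x a b : Fˣ) : F) =
      (x (w : Ideal (𝓞 F)) : F) ^ ((b w : Fin p) : ℕ) *
        ((∏ v : ↥I, (z (v : Ideal (𝓞 F)) : F) ^ ((a v : Fin p) : ℕ)) *
          (∏ w'' ∈ (Finset.univ : Finset ↥Rr).erase w,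
            (x (w'' : Ideal (𝓞 F)) : F) ^ ((b w'' : Fin p) : ℕ))) := by
  rw [key_aux_indep_val, ← Finset.mul_prod_erase Finset.univ _ (Finset.mem_univ w)]
  ring

open Classical in
/-- The cofactor of `x w ^ b w` in `Φ(a, b)` is a `p`-th power residue at `w`. -/
theorem key_aux_indep_rest (p : ℕ) (I Rr : Finset (Ideal (𝓞 F))) (z x : Ideal (𝓞 F) → Fˣ)
    (hz2 : ∀ v ∈ I, ∀ w ∈ Rr, IsPthRes F p w (z v : F))
    (hx3 : ∀ w ∈ Rr, ∀ w' ∈ Rr, w' ≠ w → IsPthRes F p w' (x w : F))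
    (a : ↥I → Fin p) (b : ↥Rr → Fin p) (w : ↥Rr) (hwp : (w : Ideal (𝓞 F)).IsPrime) :
    IsPthRes F p (w : Ideal (𝓞 F))
      ((∏ v : ↥I, (z (v : Ideal (𝓞 F)) : F) ^ ((a v : Fin p) : ℕ)) *
        (∏ w'' ∈ (Finset.univ : Finset ↥Rr).erase w,
          (x (w'' : Ideal (𝓞 F)) : F) ^ ((b w'' : Fin p) : ℕ))) := by
  refine IsPthRes.mul F p hwp
    (IsPthRes.prod F p hwp _ _ (fun v _ => IsPthRes.pow F p hwp (hz2 v v.2 w w.2) _))
    (IsPthRes.prod F p hwp _ _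
      (fun w'' hw'' => IsPthRes.pow F p hwp (hx3 w'' w''.2 w w.2 ?_) _))
  intro h
  exact (Finset.ne_of_mem_erase hw'') (Subtype.ext h.symm)

/-- If `y` is a `w`-unit and `y ^ m / y ^ k` is a `p`-th power residue at `w` for distinct
`m, k < p`, then `y` is a `p`-th power residue at `w`. -/
theorem key_aux_indep_pow (p : ℕ) [Fact p.Prime] {w : Ideal (𝓞 F)} (hw : w.IsPrime)
    (hw0 : w ≠ ⊥) {y : F} (hy : y ≠ 0) (h0 : ord F w y = 0) {m k : ℕ} (hm : m < p)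
    (hk : k < p) (hmk : m ≠ k) (h : IsPthRes F p w (y ^ m / y ^ k)) : IsPthRes F p w y := by
  rcases lt_or_gt_of_ne hmk with h1 | h1
  · have e : y ^ (k - m) = (y ^ m / y ^ k)⁻¹ := by
      rw [inv_div, div_eq_mul_inv, pow_sub₀ y hy h1.le]
    have h2 : IsPthRes F p w (y ^ (k - m)) := by
      rw [e]
      exact IsPthRes.inv F p hw hw0 h
    exact isPthRes_of_pow F p hw hw0 hy h0
      (Nat.not_dvd_of_pos_of_lt (Nat.sub_pos_of_lt h1) (lt_of_le_of_lt (Nat.sub_le _ _) hk)) h2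
  · have e : y ^ (m - k) = y ^ m / y ^ k := by
      rw [div_eq_mul_inv, pow_sub₀ y hy h1.le]
    have h2 : IsPthRes F p w (y ^ (m - k)) := by
      rw [e]
      exact h
    exact isPthRes_of_pow F p hw hw0 hy h0
      (Nat.not_dvd_of_pos_of_lt (Nat.sub_pos_of_lt h1) (lt_of_le_of_lt (Nat.sub_le _ _) hm)) h2

/-- Second half of the independence: the exponents of the `x w` agree. -/
theorem key_aux_indep_snd (p : ℕ) [Fact p.Prime] (S I Rr : Finset (Ideal (𝓞 F)))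
    (hRp : ∀ w ∈ Rr, w.IsPrime ∧ w ≠ ⊥ ∧ w ∉ S)
    (z x : Ideal (𝓞 F) → Fˣ)
    (hxS : ∀ w ∈ Rr, x w ∈ SUnits F (S : Set (Ideal (𝓞 F))))
    (hz2 : ∀ v ∈ I, ∀ w ∈ Rr, IsPthRes F p w (z v : F))
    (hx2 : ∀ w ∈ Rr, ¬ IsPthRes F p w (x w : F))
    (hx3 : ∀ w ∈ Rr, ∀ w' ∈ Rr, w' ≠ w → IsPthRes F p w' (x w : F))
    (a a' : ↥I → Fin p) (b b' : ↥Rr → Fin p)
    (h : ∀ w ∈ Rr, w.IsPrime → w ≠ ⊥ → IsPthRes F p w
      ((key_aux_Phi F I Rr z x a b / key_aux_Phi F I Rr z x a' b' : Fˣ) : F)) :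
    b = b' := by
  classical
  funext w
  obtain ⟨hwp, hw0, hwS⟩ := hRp w w.2
  by_contra hne
  have hq := h w w.2 hwp hw0
  rw [Units.val_div_eq_div_val, key_aux_indep_split F I Rr z x a b w,
    key_aux_indep_split F I Rr z x a' b' w] at hq
  have hR := key_aux_indep_rest F p I Rr z x hz2 hx3 a b w hwp
  have hR' := key_aux_indep_rest F p I Rr z x hz2 hx3 a' b' w hwp
  have hR0 := IsPthRes.ne_zero F p hwp hR
  have hR'0 := IsPthRes.ne_zero F p hwp hR'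
  have hx0 : (x (w : Ideal (𝓞 F)) : F) ≠ 0 := Units.ne_zero _
  have key : ∀ X Y R R' : F, X ≠ 0 → Y ≠ 0 → R ≠ 0 → R' ≠ 0 →
      X / Y = (X * R / (Y * R')) * (R' / R) := by
    intro X Y R R' hX hY hR hR'
    field_simp
  have h1 : IsPthRes F p (w : Ideal (𝓞 F))
      ((x (w : Ideal (𝓞 F)) : F) ^ ((b w : Fin p) : ℕ) /
        (x (w : Ideal (𝓞 F)) : F) ^ ((b' w : Fin p) : ℕ)) := by
    rw [key _ _ _ _ (pow_ne_zero _ hx0) (pow_ne_zero _ hx0) hR0 hR'0]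
    exact IsPthRes.mul F p hwp hq (IsPthRes.div F p hwp hw0 hR' hR)
  exact hx2 w w.2 (key_aux_indep_pow F p hwp hw0 hx0
    ((mem_SUnits_iff F _ (x (w : Ideal (𝓞 F)))).1 (hxS w w.2) w hwp hw0 hwS)
    (b w).2 (b' w).2 (fun h => hne (Fin.ext h)) h1)

/-- Independence of a triangular family modulo `Z`. -/
theorem key_aux_indep (p : ℕ) [Fact p.Prime] (S I Rr : Finset (Ideal (𝓞 F)))
    (hRp : ∀ w ∈ Rr, w.IsPrime ∧ w ≠ ⊥ ∧ w ∉ S)
    (z x : Ideal (𝓞 F) → Fˣ)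
    (hxS : ∀ w ∈ Rr, x w ∈ SUnits F (S : Set (Ideal (𝓞 F))))
    (hz1 : ∀ v ∈ I, (p : ℤ) ∣ ord F v (z v : F) - 1)
    (hz1' : ∀ v ∈ I, ∀ v' ∈ I, v' ≠ v → (p : ℤ) ∣ ord F v' (z v : F))
    (hz2 : ∀ v ∈ I, ∀ w ∈ Rr, IsPthRes F p w (z v : F))
    (hx1 : ∀ w ∈ Rr, ∀ v ∈ I, (p : ℤ) ∣ ord F v (x w : F))
    (hx2 : ∀ w ∈ Rr, ¬ IsPthRes F p w (x w : F))
    (hx3 : ∀ w ∈ Rr, ∀ w' ∈ Rr, w' ≠ w → IsPthRes F p w' (x w : F))
    (a a' : ↥I → Fin p) (b b' : ↥Rr → Fin p)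
    (h : key_aux_Phi F I Rr z x a b / key_aux_Phi F I Rr z x a' b' ∈ key_aux_Z F p I Rr) :
    a = a' ∧ b = b' := by
  rw [mem_key_aux_Z] at h
  exact ⟨key_aux_indep_fst F p I Rr z x hz1 hz1' hx1 a a' b b' h.1,
    key_aux_indep_snd F p S I Rr hRp z x hxS hz2 hx2 hx3 a a' b b' h.2⟩

end Fermat.Agent.S14.FirstIneq
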